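import Mathlib.Computability.PartrecCode
import Mathlib.Computability.RE

/-!
# The classes of the arithmetical hierarchy

The class `Σ₀` consists of the computable sets of natural numbers, `Σ (n + 1)` of the projections
along the pairing of the sets of `Π n`, and `Π n` of the complements of those of `Σ n`. Every level
after the zeroth has a universal set, so the hierarchy is strict.
-/

set_option autoImplicit false

namespace FA.ArithmeticalHierarchy

open Nat.Partrec (Code)

/-- The classes `Σ n`. -/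
def IsSigma : ℕ → (ℕ → Prop) → Prop
  | 0, P => ComputablePred P
  | n + 1, P => ∃ Q : ℕ → Prop, IsSigma n (fun z => ¬Q z) ∧ ∀ x, P x ↔ ∃ y, Q (Nat.pair x y)

/-- The classes `Π n`. -/
def IsPi (n : ℕ) (P : ℕ → Prop) : Prop :=
  IsSigma n fun x => ¬P x

variable {n : ℕ} {P P' : ℕ → Prop}

theorem IsSigma.of_eq (h : IsSigma n P) (e : ∀ x, P x ↔ P' x) : IsSigma n P' :=
  (funext fun x => propext (e x) : P = P') ▸ h

theorem isPi_not : IsPi n (fun x => ¬P x) ↔ IsSigma n P :=
  ⟨fun h => h.of_eq fun _ => not_not, fun h => h.of_eq fun _ => not_not.symm⟩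

theorem IsSigma.not (h : IsSigma n P) : IsPi n fun x => ¬P x :=
  isPi_not.2 h

theorem IsPi.of_eq (h : IsPi n P) (e : ∀ x, P x ↔ P' x) : IsPi n P' :=
  IsSigma.of_eq h fun x => not_congr (e x)

theorem computablePred_comp (h : ComputablePred P) {f : ℕ → ℕ} (hf : Computable f) :
    ComputablePred fun x => P (f x) := by
  obtain ⟨g, hg, rfl⟩ := ComputablePred.computable_iff.1 h
  exact ComputablePred.computable_iff.2 ⟨fun x => g (f x), hg.comp hf, rfl⟩

theorem computablePred_not (h : ComputablePred P) : ComputablePred fun x => ¬P x := by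
  obtain ⟨g, hg, rfl⟩ := ComputablePred.computable_iff.1 h
  exact ComputablePred.computable_iff.2
    ⟨fun x => !g x, Primrec.not.to_comp.comp hg, funext fun x => by simp⟩

theorem IsSigma.comp : ∀ {n : ℕ} {P : ℕ → Prop}, IsSigma n P → ∀ {f : ℕ → ℕ}, Computable f →
    IsSigma n fun x => P (f x)
  | 0, _, h, _, hf => computablePred_comp h hf
  | n + 1, _, ⟨Q, hQ, hP⟩, f, hf =>
    ⟨fun z => Q (Nat.pair (f z.unpair.1) z.unpair.2), IsSigma.comp hQ
      ((Primrec₂.natPair.to_comp.comp (hf.comp (Computable.fst.comp Computable.unpair))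
        (Computable.snd.comp Computable.unpair))),
      fun x => (hP (f x)).trans (exists_congr fun y => by simp)⟩

theorem IsPi.comp (h : IsPi n P) {f : ℕ → ℕ} (hf : Computable f) : IsPi n fun x => P (f x) :=
  IsSigma.comp (P := fun x => ¬P x) h hf

/-- A set of `Π n` is one of `Σ (n + 1)`. -/
theorem IsPi.sigma_succ (h : IsPi n P) : IsSigma (n + 1) P :=
  ⟨fun z => P z.unpair.1, h.comp (Computable.fst.comp Computable.unpair), fun x => by simp⟩

/-- The levels increase. -/
theorem IsSigma.succ : ∀ {n : ℕ} {P : ℕ → Prop}, IsSigma n P → IsSigma (n + 1) P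
  | 0, _, h => IsPi.sigma_succ (computablePred_not h)
  | _ + 1, _, ⟨Q, hQ, hP⟩ => ⟨Q, IsSigma.succ hQ, hP⟩

theorem IsPi.succ (h : IsPi n P) : IsPi (n + 1) P :=
  IsSigma.succ h

/-- A set of `Σ n` is one of `Π (n + 1)`. -/
theorem IsSigma.pi_succ (h : IsSigma n P) : IsPi (n + 1) P :=
  IsPi.sigma_succ h.not

theorem IsSigma.mono {m : ℕ} (h : IsSigma n P) (hnm : n ≤ m) : IsSigma m P :=
  Nat.le_induction h (fun _ _ ih => ih.succ) m hnm

/-- Existential quantification stays in `Σ (n + 1)`. -/
theorem IsSigma.exists (h : IsSigma (n + 1) P) :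
    IsSigma (n + 1) fun x => ∃ y, P (Nat.pair x y) := by
  obtain ⟨Q, hQ, hP⟩ := h
  refine ⟨fun z => Q (Nat.pair (Nat.pair z.unpair.1 z.unpair.2.unpair.1) z.unpair.2.unpair.2),
    hQ.comp (Primrec₂.natPair.to_comp.comp (Primrec₂.natPair.to_comp.comp
      (Computable.fst.comp Computable.unpair)
      (Computable.fst.comp (Computable.unpair.comp (Computable.snd.comp Computable.unpair))))
      (Computable.snd.comp (Computable.unpair.comp (Computable.snd.comp Computable.unpair)))),
    fun x => ?_⟩
  simp only [hP, Nat.unpair_pair]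
  exact ⟨fun ⟨y, w, hw⟩ => ⟨Nat.pair y w, by simpa using hw⟩, fun ⟨v, hv⟩ => ⟨_, _, hv⟩⟩

theorem isSigma_or_and : ∀ n : ℕ,
    (∀ {P P' : ℕ → Prop}, IsSigma n P → IsSigma n P' → IsSigma n fun x => P x ∨ P' x) ∧
      ∀ {P P' : ℕ → Prop}, IsSigma n P → IsSigma n P' → IsSigma n fun x => P x ∧ P' x
  | 0 => by
    refine ⟨fun {P P'} h h' => ?_, fun {P P'} h h' => ?_⟩
    · obtain ⟨f, hf, rfl⟩ := ComputablePred.computable_iff.1 h
      obtain ⟨g, hg, rfl⟩ := ComputablePred.computable_iff.1 h'
      exact ComputablePred.computable_iff.2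
        ⟨fun x => f x || g x, Primrec.or.to_comp.comp hf hg, funext fun x => by simp⟩
    · obtain ⟨f, hf, rfl⟩ := ComputablePred.computable_iff.1 h
      obtain ⟨g, hg, rfl⟩ := ComputablePred.computable_iff.1 h'
      exact ComputablePred.computable_iff.2
        ⟨fun x => f x && g x, Primrec.and.to_comp.comp hf hg, funext fun x => by simp⟩
  | n + 1 => by
    refine ⟨fun {P P'} h h' => ?_, fun {P P'} h h' => ?_⟩
    · obtain ⟨Q, hQ, hP⟩ := h
      obtain ⟨Q', hQ', hP'⟩ := h'
      refine ⟨fun z => Q z ∨ Q' z, ((isSigma_or_and n).2 hQ hQ').of_eq fun z => not_or.symm,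
        fun x => ?_⟩
      simp [hP, hP', exists_or]
    · obtain ⟨Q, hQ, hP⟩ := h
      obtain ⟨Q', hQ', hP'⟩ := h'
      refine IsSigma.of_eq (IsSigma.exists (P := fun z => P' z.unpair.1 ∧ Q z) ?_) fun x => ?_
      · refine IsSigma.of_eq (IsSigma.exists (P := fun w => Q w.unpair.1 ∧
          Q' (Nat.pair w.unpair.1.unpair.1 w.unpair.2)) (IsPi.sigma_succ ?_)) fun z => ?_
        · exact ((isSigma_or_and n).1 (hQ.comp (Computable.fst.comp Computable.unpair))
            (hQ'.comp (Primrec₂.natPair.to_comp.comp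
              (Computable.fst.comp (Computable.unpair.comp (Computable.fst.comp Computable.unpair)))
              (Computable.snd.comp Computable.unpair)))).of_eq fun w => not_and_or.symm
        · simp only [Nat.unpair_pair, hP']
          exact ⟨fun ⟨y, a, b⟩ => ⟨⟨y, b⟩, a⟩, fun ⟨⟨y, b⟩, a⟩ => ⟨y, a, b⟩⟩
      · simp [hP, and_comm]

theorem IsSigma.or (h : IsSigma n P) (h' : IsSigma n P') : IsSigma n fun x => P x ∨ P' x :=
  (isSigma_or_and n).1 h h'

theorem IsSigma.and (h : IsSigma n P) (h' : IsSigma n P') : IsSigma n fun x => P x ∧ P' x :=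
  (isSigma_or_and n).2 h h'

/-- **`Σ₁` consists of the recursively enumerable sets.** -/
theorem isSigma_one_iff : IsSigma 1 P ↔ REPred P := by
  constructor
  · rintro ⟨Q, hQ, hP⟩
    obtain ⟨g, hg, hgQ⟩ := ComputablePred.computable_iff.1 hQ
    refine ((Partrec.rfind (((Primrec.not.to_comp.comp (hg.comp
      (Primrec₂.natPair.to_comp.comp Computable.fst Computable.snd))).to₂ :
        Computable₂ fun x y => !g (Nat.pair x y)).partrec₂)).dom_re).of_eq fun x => ?_
    have e : ∀ z, ¬Q z ↔ g z = true := fun z => iff_of_eq (congrFun hgQ z)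
    refine Iff.trans (show _ ↔ ∃ y, (!g (Nat.pair x y)) = true by simp [Nat.rfind_dom]) ?_
    rw [hP]
    refine exists_congr fun y => ?_
    rw [Bool.not_eq_true', ← Bool.not_eq_true, ← e, not_not]
  · intro h
    obtain ⟨c, hc⟩ := Code.exists_code.1 (Partrec.nat_iff.1 (h.map
      ((Computable.const 0).to₂ : Computable₂ fun (_ : ℕ) (_ : Unit) => 0)))
    refine ⟨fun z => (Code.evaln z.unpair.2 c z.unpair.1).isSome = true,
      ComputablePred.computable_iff.2 ⟨fun z => !(Code.evaln z.unpair.2 c z.unpair.1).isSome,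
        (Primrec.not.comp (Primrec.option_isSome.comp (Code.primrec_evaln.comp (Primrec.pair
          (Primrec.pair (Primrec.snd.comp Primrec.unpair) (Primrec.const c))
          (Primrec.fst.comp Primrec.unpair))))).to_comp,
        funext fun z => by simp⟩, fun x => ?_⟩
    have hdom : (c.eval x).Dom ↔ P x := by
      rw [hc]
      exact ⟨fun h => h.1, fun h => ⟨h, trivial⟩⟩
    rw [← hdom, Part.dom_iff_mem]
    simp only [Code.evaln_complete, Option.isSome_iff_exists, Nat.unpair_pair, Option.mem_def]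
    exact ⟨fun ⟨v, s, e⟩ => ⟨s, v, e⟩, fun ⟨s, v, e⟩ => ⟨v, s, e⟩⟩

/-- The universal set of the level `k + 1`. -/
def universalSet : ℕ → ℕ → Prop
  | 0, z => (Code.eval (Denumerable.ofNat Code z.unpair.1) z.unpair.2).Dom
  | k + 1, z => ∃ y, ¬universalSet k (Nat.pair z.unpair.1 (Nat.pair z.unpair.2 y))

theorem isSigma_universalSet : ∀ k, IsSigma (k + 1) (universalSet k)
  | 0 => isSigma_one_iff.2 (Code.eval_part.comp
      ((Computable.ofNat Code).comp (Computable.fst.comp Computable.unpair))
      (Computable.snd.comp Computable.unpair)).dom_re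
  | k + 1 => by
    refine ⟨fun w => ¬universalSet k (Nat.pair w.unpair.1.unpair.1
      (Nat.pair w.unpair.1.unpair.2 w.unpair.2)), ?_, fun z => ?_⟩
    · exact ((isSigma_universalSet k).comp (Primrec₂.natPair.to_comp.comp
        (Computable.fst.comp (Computable.unpair.comp (Computable.fst.comp Computable.unpair)))
        (Primrec₂.natPair.to_comp.comp
          (Computable.snd.comp (Computable.unpair.comp (Computable.fst.comp Computable.unpair)))
          (Computable.snd.comp Computable.unpair)))).of_eq fun _ => not_not.symm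
    · simp [universalSet]

/-- **Universality.** -/
theorem exists_index : ∀ {k : ℕ} {P : ℕ → Prop}, IsSigma (k + 1) P →
    ∃ e, ∀ x, P x ↔ universalSet k (Nat.pair e x)
  | 0, P, h => by
    obtain ⟨c, hc⟩ := Code.exists_code.1 (Partrec.nat_iff.1 ((isSigma_one_iff.1 h).map
      ((Computable.const 0).to₂ : Computable₂ fun (_ : ℕ) (_ : Unit) => 0)))
    refine ⟨Encodable.encode c, fun x => ?_⟩
    simp only [universalSet, Nat.unpair_pair, Denumerable.ofNat_encode, hc]
    exact ⟨fun h => ⟨h, trivial⟩, fun h => h.1⟩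
  | k + 1, P, ⟨Q, hQ, hP⟩ => by
    obtain ⟨e, he⟩ := exists_index hQ
    refine ⟨e, fun x => (hP x).trans ?_⟩
    simp only [universalSet, Nat.unpair_pair]
    exact exists_congr fun y => by rw [← he, not_not]

/-- The diagonal set of the level `k + 1`. -/
def diagonalSet (k x : ℕ) : Prop :=
  universalSet k (Nat.pair x x)

theorem isSigma_diagonalSet (k : ℕ) : IsSigma (k + 1) (diagonalSet k) :=
  (isSigma_universalSet k).comp (Primrec₂.natPair.to_comp.comp Computable.id Computable.id)

theorem not_isPi_diagonalSet (k : ℕ) : ¬IsPi (k + 1) (diagonalSet k) := fun h => by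
  obtain ⟨e, he⟩ := exists_index h
  exact iff_not_self (he e).symm

end FA.ArithmeticalHierarchy
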