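import Fermat.Agent.ArithmeticalHierarchy.Classes
import Fermat.Agent.Root.SummaryArithmeticTruth

/-!
# The arithmetical sets are the definable ones

A level is closed under projection, so its sets are defined by formulas. Conversely the sets of
tuples of a formula, coded by pairing, are found in some level by induction on the formula.
-/

set_option autoImplicit false

namespace FA.ArithmeticalHierarchy

open FirstOrder Language ArithmeticTruth

/-- A formula in one free variable defines the set. -/
def IsDefinedSet (P : ℕ → Prop) : Prop :=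
  ∃ φ : arithLanguage.Formula (Fin 1), ∀ x : ℕ, φ.Realize ![x] ↔ P x

theorem isDefinedSet_iff (P : ℕ → Prop) :
    IsDefinedSet P ↔ (∅ : Set ℕ).Definable arithLanguage {v : Fin 1 → ℕ | P (v 0)} := by
  rw [Set.empty_definable_iff]
  refine ⟨fun ⟨φ, hφ⟩ => ⟨φ, Set.ext fun v => ?_⟩,
    fun ⟨φ, hφ⟩ => ⟨φ, fun x => (Set.ext_iff.1 hφ ![x]).symm⟩⟩
  rw [show v = ![v 0] from funext fun i => by rw [Fin.fin_one_eq_zero i]; rfl]
  exact (hφ (v 0)).symm

theorem isDefinedSet_not {P : ℕ → Prop} (h : IsDefinedSet P) : IsDefinedSet fun x => ¬P x := by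
  obtain ⟨φ, hφ⟩ := h
  exact ⟨φ.not, fun x => Formula.realize_not.trans (not_congr (hφ x))⟩

/-- The graph of the pairing is defined by an equation. -/
theorem exists_pair_formula : ∃ π : arithLanguage.Formula (Fin 3),
    ∀ v : Fin 3 → ℕ, π.Realize v ↔ Nat.pair (v 0) (v 1) = v 2 := by
  obtain ⟨β, iβ, a, b, h⟩ := exists_equation (Dioph.eq_dioph
    (Hilbert10.pair_dioph (Dioph.proj_dioph (0 : Fin 3)) (Dioph.proj_dioph (1 : Fin 3)))
    (Dioph.proj_dioph (2 : Fin 3)))
  exact ⟨_, fun v => (h v).symm⟩

theorem isDefinedSet_exists {Q : ℕ → Prop} (h : IsDefinedSet Q) :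
    IsDefinedSet fun x => ∃ y, Q (Nat.pair x y) := by
  obtain ⟨φ, hφ⟩ := h
  obtain ⟨π, hπ⟩ := exists_pair_formula
  refine ⟨Formula.iExs (Fin 2)
    (π.relabel ![.inl 0, .inr 0, .inr 1] ⊓ φ.relabel fun _ => .inr 1), fun x => ?_⟩
  simp only [Formula.realize_iExs, Formula.realize_inf, Formula.realize_relabel, hπ]
  constructor
  · rintro ⟨t, hp, hq⟩
    refine ⟨t 0, (hφ _).1 ?_⟩
    convert hq using 2
    funext i
    rw [Fin.fin_one_eq_zero i]
    simpa using hp
  · rintro ⟨y, hy⟩
    refine ⟨![y, Nat.pair x y], by simp, ?_⟩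
    convert (hφ _).2 hy using 2
    funext i
    rw [Fin.fin_one_eq_zero i]
    simp

/-- **The sets of every level are definable.** -/
theorem IsSigma.isDefinedSet : ∀ {n : ℕ} {P : ℕ → Prop}, IsSigma n P → IsDefinedSet P
  | 0, P, h => (isDefinedSet_iff P).2 (rePred_definable (S := {x | P x}) h.to_re)
  | _ + 1, _, ⟨_, hQ, hP⟩ => by
    obtain ⟨φ, hφ⟩ := isDefinedSet_exists (isDefinedSet_not (IsSigma.isDefinedSet hQ))
    exact ⟨φ, fun x => (hφ x).trans ((hP x).trans (exists_congr fun _ => not_not.symm)).symm⟩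

/-- The tuple coded by a number. -/
def tupleOf : ∀ n : ℕ, ℕ → Fin n → ℕ
  | 0, _ => Fin.elim0
  | n + 1, z => Fin.snoc (tupleOf n z.unpair.1) z.unpair.2

theorem computable_tupleOf : ∀ (n : ℕ) (i : Fin n), Computable fun z => tupleOf n z i
  | 0, i => i.elim0
  | n + 1, i => by
    induction i using Fin.lastCases with
    | last => exact (Computable.snd.comp Computable.unpair).of_eq fun z => by simp [tupleOf]
    | cast i =>
      exact ((computable_tupleOf n i).comp (Computable.fst.comp Computable.unpair)).of_eq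
        fun z => by simp [tupleOf]

theorem computable_realize {n : ℕ} : ∀ t : arithLanguage.Term (Empty ⊕ Fin n),
    Computable fun z => t.realize (Sum.elim (default : Empty → ℕ) (tupleOf n z))
  | .var (.inl e) => e.elim
  | .var (.inr i) => computable_tupleOf n i
  | .func (l := 0) f _ => Computable.const (![0, 1] f)
  | .func (l := 1) f _ => f.elim
  | .func (l := 2) f ts => by
    have h0 := computable_realize (ts 0)
    have h1 := computable_realize (ts 1)
    revert f
    exact Fin.forall_fin_two.2 ⟨Primrec.nat_add.to_comp.comp h0 h1,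
      Primrec.nat_mul.to_comp.comp h0 h1⟩
  | .func (l := _ + 3) f _ => f.elim

/-- **The sets of a formula lie in some level.** -/
theorem exists_level : ∀ {n : ℕ} (φ : arithLanguage.BoundedFormula Empty n),
    ∃ k, IsSigma k fun z => φ.Realize (default : Empty → ℕ) (tupleOf n z)
  | _, .falsum => ⟨0, ComputablePred.computable_iff.2 ⟨fun _ => false, Computable.const _,
      funext fun z => by simp [BoundedFormula.Realize]⟩⟩
  | _, .equal t u => ⟨0, ComputablePred.computable_iff.2
      ⟨fun z => decide (t.realize (Sum.elim default (tupleOf _ z)) =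
          u.realize (Sum.elim default (tupleOf _ z))),
        Primrec.eq.decide.to_comp.comp (computable_realize t) (computable_realize u),
        funext fun z => by simp [BoundedFormula.Realize]⟩⟩
  | _, .rel R _ => R.elim
  | _, .imp φ ψ => by
    obtain ⟨k, hk⟩ := exists_level φ
    obtain ⟨l, hl⟩ := exists_level ψ
    exact ⟨max k l + 1, (IsSigma.or
      ((IsPi.sigma_succ hk.not).mono (Nat.succ_le_succ (le_max_left k l)))
      (hl.mono ((le_max_right k l).trans (Nat.le_succ _)))).of_eq fun z => imp_iff_not_or.symm⟩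
  | n, .all φ => by
    obtain ⟨k, hk⟩ := exists_level φ
    refine ⟨k + 2, IsPi.sigma_succ (IsSigma.of_eq (IsSigma.exists (P := fun w =>
      ¬φ.Realize (default : Empty → ℕ) (tupleOf (n + 1) w)) (IsPi.sigma_succ hk.not)) fun z => ?_)⟩
    simp [BoundedFormula.Realize, tupleOf]

theorem exists_isSigma_of_isDefinedSet {P : ℕ → Prop} (h : IsDefinedSet P) :
    ∃ k, IsSigma k P := by
  obtain ⟨φ, hφ⟩ := h
  obtain ⟨k, hk⟩ := exists_level (bindVar φ)
  refine ⟨k, (hk.comp (f := fun x => Nat.pair 0 x)
    (Primrec₂.natPair.to_comp.comp (Computable.const 0) Computable.id)).of_eq fun x => ?_⟩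
  have e : tupleOf 1 (Nat.pair 0 x) = ![x] := funext fun i => by
    rw [Fin.fin_one_eq_zero i]
    simp [tupleOf, Fin.snoc]
  rw [e, realize_bindVar, hφ]

end FA.ArithmeticalHierarchy
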